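/-
Programme ORD (S33), chapter REDN (helper9): **residue discs of one component** — the port of helper7's
`FF/RED/Disc7` from `RedDatum` to `SemiRedDatum9.CompDatum` (partial specialisation; `D.r P = Q` becomes
`D.r P = some Q`, good uniformizers carry their disc: `D.IsGoodUnif P Q u`).

`D : CompDatum L F k Ft`, `Q` a place of the reduction, `U(Q) = {P | D.r P = some Q}` its fibre.

* `valF_mem` (D0)  : an integral function without poles on `U(Q)` has values in `A` on `U(Q)`;
* `res_valF` (D0') : and the value reduces to the value of the reduction at `Q`;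
* for a good uniformizer `u` centred at `P` (`IsGoodUnif D P u`):
  `valF_unif_mem_maximalIdeal` (D1), `unif_injOn` / `exists_valF_unif_eq` (D2: `P' ↦ u(P')` is a
  bijection `U(Q) ≅ m_A`), `ord_unif_sub` (D3: `u − u(P')` is a uniformizer at every `P' ∈ U(Q)`).
-/
import Mathlib
import Fermat.Agent.ORD.SEMIRED.SemiRedDatum9

set_option autoImplicit false
set_option linter.unusedSectionVars false
set_option linter.style.longLine false

namespace Fermat.Agent.ORD.REDN.DiscC9

open AlgebraicCurve Fermat.Agent.X0.FF Fermat.Agent.RR.LSpace Fermat.Agent.MW.EMB.Value6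
open Fermat.Agent.ORD.SEMIRED.SemiRedDatum9

noncomputable section

variable {L F k Ft : Type*} [Field L] [Field F] [Algebra L F] [Field k] [Field Ft] [Algebra k Ft]
variable (D : CompDatum L F k Ft)

/-! ### pole-free functions -/

theorem poleFree_const (c : L) (Q : Place k Ft) : D.PoleFree (algebraMap L F c) Q := fun P _ => by
  rw [ffp_ord_algebraMap]

theorem poleFree_mem {s : F} {Q : Place k Ft} (h : D.PoleFree s Q) {P : Place L F}
    (hP : D.r P = some Q) : s ∈ P.toValuationSubring := ffp_mem_of_ord_nonneg P (h P hP)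

theorem poleFree_of_mem {s : F} {Q : Place k Ft}
    (h : ∀ P : Place L F, D.r P = some Q → s ∈ P.toValuationSubring) : D.PoleFree s Q :=
  fun P hP => ffp_ord_nonneg_of_mem P (h P hP)

theorem poleFree_add {s t : F} {Q : Place k Ft} (hs : D.PoleFree s Q) (ht : D.PoleFree t Q) :
    D.PoleFree (s + t) Q :=
  poleFree_of_mem D fun P hP => P.toValuationSubring.add_mem _ _ (poleFree_mem D hs hP) (poleFree_mem D ht hP)

theorem poleFree_sub {s t : F} {Q : Place k Ft} (hs : D.PoleFree s Q) (ht : D.PoleFree t Q) :
    D.PoleFree (s - t) Q :=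
  poleFree_of_mem D fun _ hP => sub_mem (poleFree_mem D hs hP) (poleFree_mem D ht hP)

theorem poleFree_mul {s t : F} {Q : Place k Ft} (hs : D.PoleFree s Q) (ht : D.PoleFree t Q) :
    D.PoleFree (s * t) Q :=
  poleFree_of_mem D fun P hP => P.toValuationSubring.mul_mem _ _ (poleFree_mem D hs hP) (poleFree_mem D ht hP)

theorem poleFree_pow {s : F} {Q : Place k Ft} (hs : D.PoleFree s Q) (n : ℕ) :
    D.PoleFree (s ^ n) Q :=
  poleFree_of_mem D fun _ hP => pow_mem (poleFree_mem D hs hP) n

/-! ### (D0) values of integral functions on a disc -/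

/-- **(D0)** An integral function without poles on the fibre of `Q` takes values in `A` there. -/
theorem valF_mem (g : D.G) {Q : Place k Ft} (hpf : D.PoleFree (g : F) Q) {P : Place L F}
    (hP : D.r P = some Q) : valF D.HL P (g : F) ∈ D.A := by
  by_contra hc
  set c : L := valF D.HL P (g : F) with hcdef
  have hc0 : c ≠ 0 := fun h0 => hc (h0 ▸ D.A.zero_mem)
  have hinv : c⁻¹ ∈ D.A := (D.A.mem_or_inv_mem c).resolve_left hc
  -- `c⁻¹` is not a unit of `A`
  have hnu : ¬ IsUnit (⟨c⁻¹, hinv⟩ : D.A) := by
    intro hu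
    obtain ⟨b, hb⟩ := hu.exists_right_inv
    have hb' : c⁻¹ * (b : L) = 1 := congrArg Subtype.val hb
    have : (b : L) = c := by
      field_simp at hb'
      exact hb'
    exact hc (this ▸ b.2)
  -- the integral function `c⁻¹ g − 1`
  let g' : D.G := D.const ⟨c⁻¹, hinv⟩ * g - 1
  have hred : D.red g' = -1 := by
    show D.red (D.const ⟨c⁻¹, hinv⟩ * g - 1) = -1
    rw [map_sub, map_mul, map_one, D.red_const', D.res_eq_zero_of_mem_maximalIdeal hnu, map_zero,
      zero_mul, zero_sub]
  have hred0 : D.red g' ≠ 0 := by rw [hred]; exact neg_ne_zero.mpr one_ne_zero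
  have hcoe : (g' : F) = algebraMap L F c⁻¹ * ((g : F) - algebraMap L F c) := by
    show algebraMap L F c⁻¹ * (g : F) - 1 = _
    rw [mul_sub, ← map_mul, inv_mul_cancel₀ hc0, map_one]
  have hpf' : D.PoleFree (g' : F) Q := by
    rw [hcoe]
    exact poleFree_mul D (poleFree_const D _ Q) (poleFree_sub D hpf (poleFree_const D _ Q))
  have hgmem : (g : F) ∈ P.toValuationSubring := poleFree_mem D hpf hP
  have hg'0 : (g' : F) ≠ 0 := D.coe_ne_zero_of_red_ne_zero hred0
  -- `g'` vanishes at `P`
  have hpos : 0 < P.ord (g' : F) := by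
    have hne : (g : F) ≠ algebraMap L F (valF D.HL P (g : F)) := by
      intro h
      apply hg'0
      rw [hcoe, hcdef, ← h, sub_self, mul_zero]
    have h1 := ord_sub_valF_pos D.HL P hgmem hne
    rw [hcoe, P.ord_mul ((map_ne_zero _).mpr (inv_ne_zero hc0)) (sub_ne_zero.mpr hne),
      ffp_ord_algebraMap, zero_add]
    exact h1
  have hle := D.ord_le_ord_red hred0 hpf' hP
  rw [hred, ffp_ord_neg, Place.ord_one] at hle
  omega

/-- The value of an integral pole-free function at a place of the fibre, as an element of `A`. -/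
def valA (g : D.G) {Q : Place k Ft} (hpf : D.PoleFree (g : F) Q) {P : Place L F}
    (hP : D.r P = some Q) : D.A := ⟨valF D.HL P (g : F), valF_mem D g hpf hP⟩

/-- **(D0')** the value at `P` reduces to the value of the reduction at `Q = r P`. -/
theorem res_valF (g : D.G) {Q : Place k Ft} (hpf : D.PoleFree (g : F) Q) {P : Place L F}
    (hP : D.r P = some Q) :
    D.res (valA D g hpf hP) = valF D.Hk Q (D.red g) := by
  set a : D.A := valA D g hpf hP with ha
  have hgmem : (g : F) ∈ P.toValuationSubring := poleFree_mem D hpf hP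
  let g' : D.G := g - D.const a
  have hcoe : (g' : F) = (g : F) - algebraMap L F (valF D.HL P (g : F)) := rfl
  have hredg' : D.red g' = D.red g - algebraMap k Ft (D.res a) := by
    show D.red (g - D.const a) = _
    rw [map_sub, D.red_const']
  by_cases h0 : D.red g' = 0
  · -- the reduction is the constant `res a`
    rw [hredg', sub_eq_zero] at h0
    rw [h0, valF_algebraMap]
  · have hpf' : D.PoleFree (g' : F) Q := poleFree_sub D hpf (poleFree_const D _ Q)
    have hg'0 : (g' : F) ≠ 0 := D.coe_ne_zero_of_red_ne_zero h0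
    have hpos : 0 < P.ord (g' : F) := by
      rw [hcoe]
      exact ord_sub_valF_pos D.HL P hgmem (fun h => hg'0 (by rw [hcoe, ← h, sub_self]))
    have hle := D.ord_le_ord_red h0 hpf' hP
    have hposQ : 0 < Q.ord (D.red g - algebraMap k Ft (D.res a)) := by
      rw [← hredg']; omega
    symm
    have hmemQ : D.red g ∈ Q.toValuationSubring := by
      have h1 : D.red g' ∈ Q.toValuationSubring := ffp_mem_of_ord_nonneg Q (by omega)
      have h2 : D.red g = D.red g' + algebraMap k Ft (D.res a) := by rw [hredg']; ring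
      rw [h2]
      exact Q.toValuationSubring.add_mem _ _ h1 (Q.algebraMap_mem' _)
    exact valF_unique D.Hk Q hmemQ _ (Or.inr hposQ)

/-! ### good uniformizers and the disc

(The lemmas `IsGoodUnif.*` live in the namespace of `CompDatum.IsGoodUnif` for dot notation.) -/

end

end Fermat.Agent.ORD.REDN.DiscC9

namespace Fermat.Agent.ORD.SEMIRED.SemiRedDatum9.CompDatum

open AlgebraicCurve Fermat.Agent.X0.FF Fermat.Agent.RR.LSpace Fermat.Agent.MW.EMB.Value6
open Fermat.Agent.ORD.REDN.DiscC9

noncomputable section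

variable {L F k Ft : Type*} [Field L] [Field F] [Algebra L F] [Field k] [Field Ft] [Algebra k Ft]
variable {D : CompDatum L F k Ft}
variable {P : Place L F} {Q : Place k Ft} {u : D.G} (hu : D.IsGoodUnif P Q u)
include hu

theorem IsGoodUnif.r_eq : D.r P = some Q := hu.1

theorem IsGoodUnif.sm : D.Sm Q := ⟨P, hu.1⟩

theorem IsGoodUnif.ord_self : P.ord (u : F) = 1 := hu.2.1

theorem IsGoodUnif.red_ne_zero : D.red u ≠ 0 := hu.2.2.1

theorem IsGoodUnif.poleFree : D.PoleFree (u : F) Q := fun P' hP' => (hu.2.2.2 P' hP').1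

theorem IsGoodUnif.ord_of_ne {P' : Place L F} (hP' : D.r P' = some Q) (hne : P' ≠ P) :
    P'.ord (u : F) = 0 := (hu.2.2.2 P' hP').2 hne

/-- the reduction of a good uniformizer is a uniformizer at `Q`. -/
theorem IsGoodUnif.ord_red : Q.ord (D.red u) = 1 := by
  classical
  have h := D.fibre_sum u hu.red_ne_zero hu.sm
  rw [← h]
  have hmem : P ∈ (divOf D.HL (D.coe_ne_zero_of_red_ne_zero hu.red_ne_zero)).support.filter
      (fun P' => D.r P' = some Q) := by
    rw [Finset.mem_filter, Finsupp.mem_support_iff, divOf_apply, hu.ord_self]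
    exact ⟨one_ne_zero, hu.1⟩
  rw [Finset.sum_eq_single_of_mem P hmem, hu.ord_self]
  intro P' hP' hne
  exact hu.ord_of_ne (Finset.mem_filter.mp hP').2 hne

omit hu in
/-- `u − c` for `c ∈ m_A`, as an integral function: same reduction as `u`. -/
theorem red_sub_const' (u : D.G) {c : D.A} (hc : ¬ IsUnit c) :
    D.red (u - D.const c) = D.red u := by
  rw [map_sub, D.red_const', D.res_eq_zero_of_mem_maximalIdeal hc, map_zero, sub_zero]

theorem IsGoodUnif.poleFree_sub_const (c : D.A) :
    D.PoleFree ((u - D.const c : D.G) : F) Q :=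
  poleFree_sub D hu.poleFree (poleFree_const D _ _)

/-- **(D1)** the values of a good uniformizer on its disc lie in the maximal ideal. -/
theorem IsGoodUnif.valA_not_isUnit {P' : Place L F} (hP' : D.r P' = some Q) :
    ¬ IsUnit (valA D u hu.poleFree hP') := by
  rw [← D.res_eq_zero_iff, res_valF D u hu.poleFree hP']
  have hmem : D.red u ∈ Q.toValuationSubring :=
    ffp_mem_of_ord_nonneg _ (by rw [hu.ord_red]; norm_num)
  rw [valF_eq_zero_iff D.Hk _ hmem]
  right
  rw [hu.ord_red]
  norm_num

/-- **(D3)** `u − u(P')` is a uniformizer at every place `P'` of the disc. -/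
theorem IsGoodUnif.ord_sub_valF {P' : Place L F} (hP' : D.r P' = some Q) :
    P'.ord ((u : F) - algebraMap L F (valF D.HL P' (u : F))) = 1 := by
  set c : D.A := valA D u hu.poleFree hP' with hc
  have hcn : ¬ IsUnit c := hu.valA_not_isUnit hP'
  have hred : D.red (u - D.const c) = D.red u := red_sub_const' u hcn
  have hred0 : D.red (u - D.const c) ≠ 0 := by rw [hred]; exact hu.red_ne_zero
  have hne0 : ((u - D.const c : D.G) : F) ≠ 0 := D.coe_ne_zero_of_red_ne_zero hred0
  have hcoe : ((u - D.const c : D.G) : F) =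
      (u : F) - algebraMap L F (valF D.HL P' (u : F)) := rfl
  have hpos : 0 < P'.ord ((u - D.const c : D.G) : F) := by
    rw [hcoe]
    exact ord_sub_valF_pos D.HL P' (poleFree_mem D hu.poleFree hP')
      (fun h => hne0 (by rw [hcoe, ← h, sub_self]))
  have hle := D.ord_le_ord_red hred0 (hu.poleFree_sub_const c) hP'
  rw [hred, hu.ord_red] at hle
  rw [← hcoe]
  omega

/-- **(D2), injectivity**: a good uniformizer separates the places of its disc. -/
theorem IsGoodUnif.eq_of_valF_eq {P' P'' : Place L F} (hP' : D.r P' = some Q)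
    (hP'' : D.r P'' = some Q) (h : valF D.HL P' (u : F) = valF D.HL P'' (u : F)) : P' = P'' := by
  by_contra hne
  set c : D.A := valA D u hu.poleFree hP' with hc
  have hcn : ¬ IsUnit c := hu.valA_not_isUnit hP'
  have hred : D.red (u - D.const c) = D.red u := red_sub_const' u hcn
  have hred0 : D.red (u - D.const c) ≠ 0 := by rw [hred]; exact hu.red_ne_zero
  have hcoe : ((u - D.const c : D.G) : F) =
      (u : F) - algebraMap L F (valF D.HL P' (u : F)) := rfl
  have h1 := hu.ord_sub_valF hP'
  have h2 := hu.ord_sub_valF hP''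
  rw [← h] at h2
  have hle := D.ord_add_ord_le_ord_red hred0 (hu.poleFree_sub_const c) hP' hP'' hne
  rw [hred, hu.ord_red, hcoe, h1, h2] at hle
  omega

/-- **(D2), surjectivity**: every element of `m_A` is the value of the good uniformizer at a place
of the disc. -/
theorem IsGoodUnif.exists_valF_eq {c : D.A} (hc : ¬ IsUnit c) :
    ∃ P' : Place L F, D.r P' = some Q ∧ valF D.HL P' (u : F) = (c : L) := by
  have hred : D.red (u - D.const c) = D.red u := red_sub_const' u hc
  have hred0 : D.red (u - D.const c) ≠ 0 := by rw [hred]; exact hu.red_ne_zero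
  have hpos : 0 < Q.ord (D.red (u - D.const c)) := by
    rw [hred, hu.ord_red]; norm_num
  obtain ⟨P', hP', hP'pos⟩ := D.exists_zero_of_ord_red_pos hred0 hu.sm hpos
  refine ⟨P', hP', ?_⟩
  exact valF_unique D.HL P' (poleFree_mem D hu.poleFree hP') _ (Or.inr hP'pos)

end

end Fermat.Agent.ORD.SEMIRED.SemiRedDatum9.CompDatum
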