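/-
Programme ORD (S33), chapter REDN (helper5): **expansions on residue discs of one component** — the
mechanical port of helper7's `FF/RED/Expand7` from `RedDatum` to `SemiRedDatum9.CompDatum` (partial
specialisation: `D.r P = Q` becomes `D.r P = some Q`; the reduction `redR` of the disc ring needs the
disc to be nonempty, `hQ : D.Sm Q`; charts carry `hu : D.IsGoodUnif P Q u`).  Same names as `Expand7`.

`D : CompDatum L F k Ft`, `Q` a place of the reduction.

* `discRing D Q : Subring F` : integral functions without poles on the residue disc `U(Q)`;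
  `constR : A →+* discRing`, `evR hP' : discRing →+* A` (value at a place `P'` of the disc),
  `redR : discRing →+* O_Q` (reduction), `res_evR` (D0');
* `Chart D Q` : a centre `P ∈ U(Q)` with a good uniformizer; `Chart.uR`, `Chart.dq` (divided difference
  `(s − s(P))/u`, again in `discRing`), `Chart.expDatum : ExpDatum A (discRing D Q)`,
  `Chart.expand : discRing D Q →+* A⟦X⟧` with `expand_uR = X`, `expand_constR = C`;
* `Chart.recentre` : the same uniformizer recentred at another place of the disc;
* `Chart.finite_expansion`, `Chart.evR_expansion` (values at the places of the disc: exact finite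
  expansions with remainder in `A`);
* `Chart.pow_dvd_iff_ord`, `Chart.ord_ge_iff` (order of vanishing at the centre = number of vanishing
  coefficients);
* `placeExp` : the expansion datum of a place of `Ft` with a uniformizer, `Chart.redHom` and
  `Chart.map_res_expand` : coefficientwise reduction of the expansion is the expansion of the
  reduction.
-/
import Mathlib
import Fermat.Agent.ORD.REDN.DiscC9
import Fermat.Agent.ORD.REDN.GaussC5
import Fermat.Agent.FF.RED.ExpDatum7

set_option autoImplicit false
set_option linter.unusedSectionVars false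
set_option linter.style.longLine false

namespace Fermat.Agent.ORD.REDN.ExpandC5

open AlgebraicCurve Fermat.Agent.X0.FF Fermat.Agent.RR.LSpace Fermat.Agent.MW.EMB.Value6
open Fermat.Agent.ORD.SEMIRED.SemiRedDatum9 Fermat.Agent.ORD.REDN.DiscC9 Fermat.Agent.ORD.REDN.GaussC5
open Fermat.Agent.FF.RED.ExpDatum7

noncomputable section

variable {L F k Ft : Type*} [Field L] [Field F] [Algebra L F] [Field k] [Field Ft] [Algebra k Ft]

/-! ### generalities on `ord` -/

theorem ord_div {K E : Type*} [Field K] [Field E] [Algebra K E] (v : Place K E) {x y : E}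
    (hx : x ≠ 0) (hy : y ≠ 0) : v.ord (x / y) = v.ord x - v.ord y := by
  rw [div_eq_mul_inv, v.ord_mul hx (inv_ne_zero hy), v.ord_inv, sub_eq_add_neg]

theorem ord_pow' {K E : Type*} [Field K] [Field E] [Algebra K E] (v : Place K E) (x : E) (n : ℕ) :
    v.ord (x ^ n) = n * v.ord x := by
  have := v.ord_zpow x n
  rwa [zpow_natCast] at this

variable (D : CompDatum L F k Ft)

theorem poleFree_neg {s : F} {Q : Place k Ft} (hs : D.PoleFree s Q) : D.PoleFree (-s) Q :=
  fun P hP => by rw [ffp_ord_neg]; exact hs P hP

/-! ### the ring of a disc -/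

/-- integral functions without poles on the residue disc of `Q`. -/
def discRing (Q : Place k Ft) : Subring F where
  carrier := {s | s ∈ D.G ∧ D.PoleFree s Q}
  mul_mem' := fun ha hb => ⟨D.G.mul_mem ha.1 hb.1, poleFree_mul D ha.2 hb.2⟩
  one_mem' := ⟨D.G.one_mem, by
    have := poleFree_const D 1 Q
    rwa [map_one] at this⟩
  add_mem' := fun ha hb => ⟨D.G.add_mem ha.1 hb.1, poleFree_add D ha.2 hb.2⟩
  zero_mem' := ⟨D.G.zero_mem, by
    have := poleFree_const D 0 Q
    rwa [map_zero] at this⟩
  neg_mem' := fun ha => ⟨D.G.neg_mem ha.1, poleFree_neg D ha.2⟩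

variable {D}

theorem mem_discRing {Q : Place k Ft} {s : F} : s ∈ discRing D Q ↔ s ∈ D.G ∧ D.PoleFree s Q :=
  Iff.rfl

/-- an element of the disc ring as an integral function -/
def toG {Q : Place k Ft} (s : discRing D Q) : D.G := ⟨(s : F), s.2.1⟩

@[simp] theorem coe_toG {Q : Place k Ft} (s : discRing D Q) : ((toG s : D.G) : F) = (s : F) := rfl

theorem poleFree_coe {Q : Place k Ft} (s : discRing D Q) : D.PoleFree (s : F) Q := s.2.2

theorem coe_mem_place {Q : Place k Ft} (s : discRing D Q) {P : Place L F} (hP : D.r P = some Q) :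
    (s : F) ∈ P.toValuationSubring := poleFree_mem D s.2.2 hP

variable (D)

/-- constants -/
def constR (Q : Place k Ft) : D.A →+* discRing D Q :=
  RingHom.codRestrict ((algebraMap L F).comp D.A.subtype) (discRing D Q)
    (fun a => ⟨D.const_mem a, poleFree_const D _ Q⟩)

variable {D}

@[simp] theorem coe_constR (Q : Place k Ft) (a : D.A) :
    ((constR D Q a : discRing D Q) : F) = algebraMap L F (a : L) := rfl

/-- the value at a place of the disc -/
def evR {Q : Place k Ft} {P : Place L F} (hP : D.r P = some Q) : discRing D Q →+* D.A where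
  toFun s := valA D (toG s) s.2.2 hP
  map_one' := Subtype.ext (by
    show valF D.HL P ((1 : discRing D Q) : F) = 1
    rw [Subring.coe_one, valF_one])
  map_mul' s t := Subtype.ext (by
    show valF D.HL P ((s * t : discRing D Q) : F) = valF D.HL P (s : F) * valF D.HL P (t : F)
    rw [Subring.coe_mul, valF_mul D.HL P (coe_mem_place s hP) (coe_mem_place t hP)])
  map_zero' := Subtype.ext (by
    show valF D.HL P ((0 : discRing D Q) : F) = 0
    rw [Subring.coe_zero, valF_zero])
  map_add' s t := Subtype.ext (by
    show valF D.HL P ((s + t : discRing D Q) : F) = valF D.HL P (s : F) + valF D.HL P (t : F)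
    rw [Subring.coe_add, valF_add D.HL P (coe_mem_place s hP) (coe_mem_place t hP)])

@[simp] theorem coe_evR {Q : Place k Ft} {P : Place L F} (hP : D.r P = some Q) (s : discRing D Q) :
    ((evR hP s : D.A) : L) = valF D.HL P (s : F) := rfl

theorem evR_constR {Q : Place k Ft} {P : Place L F} (hP : D.r P = some Q) (a : D.A) :
    evR hP (constR D Q a) = a :=
  Subtype.ext (by rw [coe_evR, coe_constR, valF_algebraMap])

/-- `s − s(P)` vanishes at `P`. -/
theorem ord_sub_evR_pos {Q : Place k Ft} {P : Place L F} (hP : D.r P = some Q) (s : discRing D Q)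
    (hne : (s : F) - algebraMap L F (evR hP s : L) ≠ 0) :
    0 < P.ord ((s : F) - algebraMap L F (evR hP s : L)) :=
  ord_sub_valF_pos D.HL P (coe_mem_place s hP) (fun h => hne (by rw [coe_evR, ← h, sub_self]))

theorem evR_eq_zero_iff {Q : Place k Ft} {P : Place L F} (hP : D.r P = some Q) (s : discRing D Q) :
    evR hP s = 0 ↔ (s : F) = 0 ∨ 0 < P.ord (s : F) := by
  rw [← valF_eq_zero_iff D.HL P (coe_mem_place s hP), ← coe_evR hP s]
  constructor
  · intro h; rw [h]; rfl
  · intro h; exact Subtype.ext h

/-! ### reduction of the disc ring -/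

theorem red_toG_mem {Q : Place k Ft} (hQ : D.Sm Q) (s : discRing D Q) :
    D.red (toG s) ∈ Q.toValuationSubring := by
  by_cases h0 : D.red (toG s) = 0
  · rw [h0]; exact zero_mem _
  · exact ffp_mem_of_ord_nonneg Q (D.ord_red_nonneg h0 hQ s.2.2)

/-- reduction, with values in the valuation ring of `Q` (the disc of `Q` must be nonempty). -/
def redR {Q : Place k Ft} (hQ : D.Sm Q) : discRing D Q →+* Q.toValuationSubring where
  toFun s := ⟨D.red (toG s), red_toG_mem hQ s⟩
  map_one' := Subtype.ext (by
    show D.red (toG (1 : discRing D Q)) = 1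
    have : toG (1 : discRing D Q) = 1 := rfl
    rw [this, map_one])
  map_mul' s t := Subtype.ext (by
    show D.red (toG (s * t)) = D.red (toG s) * D.red (toG t)
    have : toG (s * t) = toG s * toG t := rfl
    rw [this, map_mul])
  map_zero' := Subtype.ext (by
    show D.red (toG (0 : discRing D Q)) = 0
    have : toG (0 : discRing D Q) = 0 := rfl
    rw [this, map_zero])
  map_add' s t := Subtype.ext (by
    show D.red (toG (s + t)) = D.red (toG s) + D.red (toG t)
    have : toG (s + t) = toG s + toG t := rfl
    rw [this, map_add])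

@[simp] theorem coe_redR {Q : Place k Ft} (hQ : D.Sm Q) (s : discRing D Q) :
    ((redR hQ s : Q.toValuationSubring) : Ft) = D.red (toG s) := rfl

/-- **(D0')** values reduce to values of the reduction. -/
theorem res_evR {Q : Place k Ft} {P : Place L F} (hP : D.r P = some Q) (s : discRing D Q) :
    D.res (evR hP s) = val D.Hk Q (redR ⟨P, hP⟩ s) := by
  have h := res_valF D (toG s) s.2.2 hP
  rw [valF_of_mem D.Hk Q (red_toG_mem ⟨P, hP⟩ s)] at h
  exact h

/-! ### charts -/

variable (D)

/-- a chart of the disc `U(Q)`: a centre and a good uniformizer. -/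
structure Chart (Q : Place k Ft) where
  P : Place L F
  hP : D.r P = some Q
  u : D.G
  hu : D.IsGoodUnif P Q u

variable {D}

theorem exists_chart {P : Place L F} {Q : Place k Ft} (hP : D.r P = some Q) :
    Nonempty (Chart D Q) := by
  obtain ⟨u, hu⟩ := D.exists_isGoodUnif hP
  exact ⟨⟨P, hP, u, hu⟩⟩

namespace Chart

variable {Q : Place k Ft} (c : Chart D Q)

include c in
theorem sm : D.Sm Q := ⟨c.P, c.hP⟩

theorem poleFree_u : D.PoleFree (c.u : F) Q := c.hu.poleFree

/-- the uniformizer as an element of the disc ring -/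
def uR : discRing D Q := ⟨(c.u : F), c.u.2, c.poleFree_u⟩

@[simp] theorem coe_uR : ((c.uR : discRing D Q) : F) = (c.u : F) := rfl

theorem u_ne_zero : (c.u : F) ≠ 0 := D.coe_ne_zero_of_red_ne_zero c.hu.red_ne_zero

theorem ord_u_centre : c.P.ord (c.u : F) = 1 := c.hu.ord_self

theorem ord_u_of_ne {P' : Place L F} (hP' : D.r P' = some Q) (hne : P' ≠ c.P) :
    P'.ord (c.u : F) = 0 := c.hu.ord_of_ne hP' hne

theorem evR_uR : evR c.hP c.uR = 0 := by
  rw [evR_eq_zero_iff]
  right
  rw [coe_uR, c.ord_u_centre]; norm_num

/-- divided difference `(s − s(P)) / u` as a function. -/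
def dqF (s : discRing D Q) : F := ((s : F) - algebraMap L F (evR c.hP s : L)) / (c.u : F)

theorem dqF_mem (s : discRing D Q) : c.dqF s ∈ discRing D Q := by
  refine ⟨?_, ?_⟩
  · exact div_mem D (D.G.sub_mem s.2.1 (D.const_mem _)) c.u.2 c.hu.red_ne_zero
  · intro P' hP'
    unfold dqF
    by_cases h0 : (s : F) - algebraMap L F (evR c.hP s : L) = 0
    · rw [h0, zero_div, Place.ord_zero]
    rw [ord_div P' h0 c.u_ne_zero]
    have hnn : 0 ≤ P'.ord ((s : F) - algebraMap L F (evR c.hP s : L)) :=
      poleFree_sub D s.2.2 (poleFree_const D _ Q) P' hP'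
    by_cases hPP : P' = c.P
    · subst hPP
      have := ord_sub_evR_pos c.hP s h0
      rw [c.ord_u_centre]; omega
    · rw [c.ord_u_of_ne hP' hPP]; omega

/-- **divided difference** on the disc ring. -/
def dq (s : discRing D Q) : discRing D Q := ⟨c.dqF s, c.dqF_mem s⟩

theorem dq_spec (s : discRing D Q) : s = constR D Q (evR c.hP s) + c.uR * c.dq s := by
  apply Subtype.ext
  show (s : F) = algebraMap L F (evR c.hP s : L) + (c.u : F) * c.dqF s
  unfold dqF
  rw [mul_div_cancel₀ _ c.u_ne_zero]; ring

/-- the expansion datum of a chart -/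
def expDatum : ExpDatum D.A (discRing D Q) where
  const := constR D Q
  ev := evR c.hP
  ev_const := evR_constR c.hP
  u := c.uR
  ev_u := c.evR_uR
  u_reg := fun x y h => by
    apply Subtype.ext
    have h1 : (c.u : F) * (x : F) = (c.u : F) * (y : F) := congrArg Subtype.val h
    exact mul_left_cancel₀ c.u_ne_zero h1
  dq := c.dq
  dq_spec := c.dq_spec

/-- **the expansion homomorphism of a chart**, `discRing D Q →+* A⟦X⟧`. -/
def expand : discRing D Q →+* PowerSeries D.A := c.expDatum.expand

/-- the coefficients -/
def coef (n : ℕ) (s : discRing D Q) : D.A := c.expDatum.coef n s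

@[simp] theorem coeff_expand (n : ℕ) (s : discRing D Q) :
    PowerSeries.coeff n (c.expand s) = c.coef n s := c.expDatum.coeff_expand n s

@[simp] theorem expand_constR (a : D.A) : c.expand (constR D Q a) = PowerSeries.C a :=
  c.expDatum.expand_const a

@[simp] theorem expand_uR : c.expand c.uR = PowerSeries.X := c.expDatum.expand_u

theorem coef_zero (s : discRing D Q) : c.coef 0 s = evR c.hP s := rfl

theorem coef_succ (n : ℕ) (s : discRing D Q) : c.coef (n + 1) s = c.coef n (c.dq s) :=
  c.expDatum.coef_succ n s

/-- **finite expansion with exact remainder**, in the disc ring. -/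
theorem finite_expansion (s : discRing D Q) (m : ℕ) :
    s = (∑ n ∈ Finset.range m, constR D Q (c.coef n s) * c.uR ^ n) + c.uR ^ m * c.dq^[m] s :=
  c.expDatum.finite_expansion s m

/-- **values on the disc**: for every place `P'` of the disc, the value `s(P')` is the finite
expansion in `u(P') ∈ m_A` with a remainder in `A`. -/
theorem evR_expansion {P' : Place L F} (hP' : D.r P' = some Q) (s : discRing D Q) (m : ℕ) :
    evR hP' s = (∑ n ∈ Finset.range m, c.coef n s * evR hP' c.uR ^ n) +
      evR hP' c.uR ^ m * evR hP' (c.dq^[m] s) := by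
  have h := c.expDatum.map_finite_expansion (evR hP') s m
  rw [h]
  refine congrArg₂ _ (Finset.sum_congr rfl fun n _ => ?_) rfl
  show evR hP' (constR D Q (c.coef n s)) * _ = _
  rw [evR_constR]
  rfl

/-- the coordinate of a place of the disc lies in the maximal ideal. -/
theorem evR_uR_not_isUnit {P' : Place L F} (hP' : D.r P' = some Q) : ¬ IsUnit (evR hP' c.uR) := by
  have h := c.hu.valA_not_isUnit hP'
  exact h

/-! ### recentring -/

/-- the recentred uniformizer `u − u(P')` is a good uniformizer at `P'`. -/
theorem isGoodUnif_recentre {P' : Place L F} (hP' : D.r P' = some Q) :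
    D.IsGoodUnif P' Q (c.u - D.const (evR hP' c.uR)) := by
  have hcn : ¬ IsUnit (evR hP' c.uR) := c.evR_uR_not_isUnit hP'
  have hred : D.red (c.u - D.const (evR hP' c.uR)) = D.red c.u := CompDatum.red_sub_const' c.u hcn
  have hred0 : D.red (c.u - D.const (evR hP' c.uR)) ≠ 0 := by rw [hred]; exact c.hu.red_ne_zero
  have h1 : P'.ord ((c.u - D.const (evR hP' c.uR) : D.G) : F) = 1 := c.hu.ord_sub_valF hP'
  refine ⟨hP', h1, hred0, fun P'' hP''' => ?_⟩
  have hpf := c.hu.poleFree_sub_const (evR hP' c.uR)
  refine ⟨hpf P'' hP''', fun hne => ?_⟩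
  have hle := D.ord_add_ord_le_ord_red hred0 hpf hP' hP''' (Ne.symm hne)
  rw [hred, c.hu.ord_red, h1] at hle
  have := hpf P'' hP'''
  omega

/-- the chart recentred at another place of the disc. -/
def recentre {P' : Place L F} (hP' : D.r P' = some Q) : Chart D Q where
  P := P'
  hP := hP'
  u := c.u - D.const (evR hP' c.uR)
  hu := c.isGoodUnif_recentre hP'

@[simp] theorem recentre_P {P' : Place L F} (hP' : D.r P' = some Q) : (c.recentre hP').P = P' := rfl

theorem recentre_uR {P' : Place L F} (hP' : D.r P' = some Q) :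
    (c.recentre hP').uR = c.uR - constR D Q (evR hP' c.uR) := rfl

/-- **peel at an arbitrary place of the disc**: `s = s(P') + (u − u(P')) · s'`. -/
theorem peel_at {P' : Place L F} (hP' : D.r P' = some Q) (s : discRing D Q) :
    s = constR D Q (evR hP' s) + (c.uR - constR D Q (evR hP' c.uR)) * (c.recentre hP').dq s :=
  (c.recentre hP').dq_spec s

/-! ### orders of vanishing at the centre -/

/-- divisibility by `u^m` in the disc ring is vanishing to order `m` at the centre. -/
theorem pow_dvd_iff_ord (s : discRing D Q) (hs : (s : F) ≠ 0) (m : ℕ) :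
    c.uR ^ m ∣ s ↔ (m : ℤ) ≤ c.P.ord (s : F) := by
  constructor
  · rintro ⟨t, rfl⟩
    have ht : (t : F) ≠ 0 := by
      intro h0
      apply hs
      rw [Subring.coe_mul, h0, mul_zero]
    rw [Subring.coe_mul, Subring.coe_pow, coe_uR,
      c.P.ord_mul (pow_ne_zero _ c.u_ne_zero) ht, ord_pow', c.ord_u_centre, mul_one]
    have := t.2.2 c.P c.hP
    omega
  · intro h
    have hmem : (s : F) / (c.u : F) ^ m ∈ discRing D Q := by
      refine ⟨?_, ?_⟩
      · have hpow : (c.u : F) ^ m ∈ D.G := D.G.pow_mem c.u.2 m
        refine div_mem D s.2.1 hpow ?_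
        have : (⟨(c.u : F) ^ m, hpow⟩ : D.G) = c.u ^ m := rfl
        rw [this, map_pow]
        exact pow_ne_zero _ c.hu.red_ne_zero
      · intro P' hP'
        rw [ord_div P' hs (pow_ne_zero _ c.u_ne_zero), ord_pow']
        by_cases hPP : P' = c.P
        · subst hPP
          rw [c.ord_u_centre]; omega
        · rw [c.ord_u_of_ne hP' hPP]
          have := s.2.2 P' hP'
          omega
    refine ⟨⟨_, hmem⟩, ?_⟩
    apply Subtype.ext
    rw [Subring.coe_mul, Subring.coe_pow, coe_uR]
    show (s : F) = (c.u : F) ^ m * ((s : F) / (c.u : F) ^ m)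
    rw [mul_div_cancel₀ _ (pow_ne_zero _ c.u_ne_zero)]

/-- **order of vanishing at the centre = number of vanishing coefficients.** -/
theorem ord_ge_iff (s : discRing D Q) (hs : (s : F) ≠ 0) (m : ℕ) :
    (m : ℤ) ≤ c.P.ord (s : F) ↔ ∀ n < m, c.coef n s = 0 := by
  rw [← c.pow_dvd_iff_ord s hs m]
  exact c.expDatum.pow_dvd_iff s m

/-- the expansion is injective. -/
theorem expand_injective : Function.Injective c.expand := by
  rw [injective_iff_map_eq_zero]
  intro s hs
  by_contra h0
  have hs0 : (s : F) ≠ 0 := fun h => h0 (Subtype.ext h)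
  have hnn : 0 ≤ c.P.ord (s : F) := s.2.2 c.P c.hP
  obtain ⟨m, hm⟩ := Int.eq_ofNat_of_zero_le hnn
  have h1 : ((m + 1 : ℕ) : ℤ) ≤ c.P.ord (s : F) := by
    rw [c.ord_ge_iff s hs0 (m + 1)]
    intro n _
    rw [← c.coeff_expand, hs, map_zero]
  rw [hm] at h1
  push_cast at h1
  omega

end Chart

/-! ### the expansion datum of a place with a uniformizer, and reduction of expansions -/

/-- the expansion datum of a place `v` of a function field `E / K` with a uniformizer `π`. -/
def placeExp {K E : Type*} [Field K] [Field E] [Algebra K E] (H : LHyp K E) (v : Place K E)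
    (π : v.toValuationSubring) (hπ : v.ord (π : E) = 1) : ExpDatum K v.toValuationSubring where
  const := algebraMap K v.toValuationSubring
  ev := val H v
  ev_const := val_algebraMap H v
  u := π
  ev_u := by
    rw [val_eq_zero_iff_ord]; right; rw [hπ]; norm_num
  u_reg := fun x y h => by
    have hπ0 : π ≠ 0 := by
      intro h0
      rw [h0] at hπ
      have : v.ord ((0 : v.toValuationSubring) : E) = 0 := by
        rw [ZeroMemClass.coe_zero, Place.ord_zero]
      omega
    exact mul_left_cancel₀ hπ0 h
  dq := fun s => ⟨((s : E) - algebraMap K E (val H v s)) / (π : E), by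
    by_cases h0 : (s : E) - algebraMap K E (val H v s) = 0
    · rw [h0, zero_div]; exact zero_mem _
    · have hπ0 : (π : E) ≠ 0 := by
        intro h; rw [h, Place.ord_zero] at hπ; omega
      apply ffp_mem_of_ord_nonneg
      rw [ord_div v h0 hπ0, hπ]
      have := ord_sub_val_pos H v s (fun h => h0 (by rw [← h, sub_self]))
      omega⟩
  dq_spec := fun s => by
    have hπ0 : (π : E) ≠ 0 := by
      intro h; rw [h, Place.ord_zero] at hπ; omega
    apply Subtype.ext
    show (s : E) = algebraMap K E (val H v s) + (π : E) * (((s : E) - algebraMap K E (val H v s)) / (π : E))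
    rw [mul_div_cancel₀ _ hπ0]; ring

namespace Chart

variable {Q : Place k Ft} (c : Chart D Q)

theorem ord_red_u : Q.ord (D.red c.u) = 1 := c.hu.ord_red

/-- the reduced expansion datum: the place `Q` with the uniformizer `red u`. -/
def redExp : ExpDatum k Q.toValuationSubring :=
  placeExp D.Hk Q (redR c.sm c.uR) c.ord_red_u

/-- reduction as a morphism of expansion data. -/
def redHom : ExpDatum.Hom c.expDatum c.redExp where
  ρ := redR c.sm
  res := D.res
  ρ_const := fun a => Subtype.ext (by
    show D.red (toG (constR D Q a)) = algebraMap k Ft (D.res a)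
    exact D.red_const a)
  res_ev := fun s => res_evR c.hP s
  ρ_u := rfl

/-- **coefficientwise reduction of the expansion is the expansion of the reduction.** -/
theorem map_res_expand (s : discRing D Q) :
    PowerSeries.map D.res (c.expand s) = c.redExp.expand (redR c.sm s) :=
  c.redHom.map_expand s

theorem res_coef (n : ℕ) (s : discRing D Q) :
    D.res (c.coef n s) = c.redExp.coef n (redR c.sm s) :=
  c.redHom.res_coef n s

end Chart

end

end Fermat.Agent.ORD.REDN.ExpandC5
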