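/-
Programme ORD (S33), chapter REDN (helper6): **(DLINK) on one component** — the port of helper9's
`FF/NS/Link9` from `RedDatum` to `SemiRedDatum9.CompDatum`: THE RATIO OF THE DIFFERENTIALS OF ANY TWO
GOOD UNIFORMIZERS (on smooth discs of the SAME component) IS A UNIT OF THE GAUSS RING OF THAT
COMPONENT.  `F / L` a function field over an algebraically closed field of characteristic zero
(`hx : IsGen L x`).

* `dq_mem_G`, `poleFree_dq`, `valF_dq_mem` : for `s` integral and pole-free on the disc of a good
  uniformizer `u`, the differential quotient `ds/du` is pole-free on the disc and INTEGRAL;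
* `DUnit D u u'` : `d u = z • d u'` with `z` a unit of the Gauss ring (`red z ≠ 0`); an equivalence
  relation (`DUnit.refl/symm/trans`);
* `dunit_of_link` : two good uniformizers each without poles on the disc of the other are `DUnit`;
* `ChartCoverC D ι` : a family of chart rings `B i ≤ F` with sets `St i` of reduced places: cover of
  the SMOOTH points `D.Sm Q`, `B i` pole-free on the discs of `St i`, good uniformizers from `B i`,
  pairwise overlap IN A SMOOTH POINT;
* `dunit_of_cover` : **(DLINK)** any two good uniformizers (of any two smooth discs) are `DUnit`.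
-/
import Mathlib
import Fermat.Agent.ORD.REDN.MaxModC6
import Fermat.Agent.FF.NS.DiffVal9

set_option autoImplicit false
set_option linter.unusedSectionVars false
set_option linter.style.longLine false

namespace Fermat.Agent.ORD.REDN.LinkC6

open AlgebraicCurve KaehlerDifferential Fermat.Agent.X0.FF Fermat.Agent.RR.LSpace
  Fermat.Agent.MW.EMB.Value6
open Fermat.Agent.ORD.SEMIRED.SemiRedDatum9 Fermat.Agent.ORD.REDN.DiscC9
  Fermat.Agent.ORD.REDN.MaxModC6 Fermat.Agent.FF.NS.DiffVal9

noncomputable section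

variable {L F k Ft : Type*} [Field L] [Field F] [Algebra L F] [Field k] [Field Ft] [Algebra k Ft]
variable [IsAlgClosed L] [CharZero L] {x : F}
variable (D : CompDatum L F k Ft)

theorem exists_sqrt (c : L) : ∃ b : L, b * b = c := by
  obtain ⟨z, hz⟩ := IsAlgClosed.exists_eq_mul_self c
  exact ⟨z, hz.symm⟩

theorem transcendental_of_isGoodUnif {P : Place L F} {Q : Place k Ft} {u : D.G}
    (hu : D.IsGoodUnif P Q u) : Transcendental L (u : F) :=
  ffp_transcendental_of_ord_ne_zero P (by rw [hu.ord_self]; exact one_ne_zero)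

/-! ### the differential quotient of an integral function on a disc -/

section DQ

variable (hx : IsGen L x) {P : Place L F} {Q : Place k Ft} {u : D.G} (hu : D.IsGoodUnif P Q u)
  (s : D.G) (hpf : D.PoleFree (s : F) Q)

include hx hu hpf in
/-- `ds/du` has no pole on the disc of `u`. -/
theorem poleFree_dq : D.PoleFree (dq L (s : F) (u : F)) Q := by
  intro P' hP'
  exact ffp_ord_nonneg_of_mem P'
    (dq_mem hx P' (hu.ord_sub_valF hP') (poleFree_mem D hpf hP') D.HL)

include hx hu hpf in
/-- the values of `ds/du` on the disc of `u` lie in `A`. -/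
theorem valF_dq_mem {P' : Place L F} (hP' : D.r P' = some Q) :
    valF D.HL P' (dq L (s : F) (u : F)) ∈ D.A := by
  rw [valF_dq hx P' (hu.ord_sub_valF hP') (poleFree_mem D hpf hP') D.HL]
  exact valF_quot_mem (hu.recenter hP') s hpf

include hx hu hpf in
/-- **`ds/du` is integral.** -/
theorem dq_mem_G : dq L (s : F) (u : F) ∈ D.G :=
  mem_G_of_valF_mem exists_sqrt hu.sm (poleFree_dq D hx hu s hpf)
    (fun _ hP' => valF_dq_mem D hx hu s hpf hP')

end DQ

/-! ### the relation `DUnit` -/

/-- `d u = z • d u'` with `z` a unit of the Gauss ring. -/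
def DUnit (u u' : F) : Prop :=
  ∃ z : D.G, D.red z ≠ 0 ∧ KaehlerDifferential.D L F u = (z : F) • KaehlerDifferential.D L F u'

theorem DUnit.refl (u : F) : DUnit D u u :=
  ⟨1, by rw [map_one]; exact one_ne_zero, by rw [Subring.coe_one, one_smul]⟩

variable {D} in
theorem DUnit.symm {u u' : F} (h : DUnit D u u') : DUnit D u' u := by
  obtain ⟨z, hz, h⟩ := h
  refine ⟨invG D z hz, by rw [red_invG]; exact inv_ne_zero hz, ?_⟩
  rw [h, coe_invG, smul_smul, inv_mul_cancel₀ (D.coe_ne_zero_of_red_ne_zero hz), one_smul]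

variable {D} in
theorem DUnit.trans {u u' u'' : F} (h : DUnit D u u') (h' : DUnit D u' u'') : DUnit D u u'' := by
  obtain ⟨z, hz, h⟩ := h
  obtain ⟨z', hz', h'⟩ := h'
  refine ⟨z * z', by rw [map_mul]; exact mul_ne_zero hz hz', ?_⟩
  rw [h, h', smul_smul, Subring.coe_mul]

/-- **Linked uniformizers**: two good uniformizers, each without poles on the disc of the other. -/
theorem dunit_of_link (hx : IsGen L x) {P P' : Place L F} {Q Q' : Place k Ft} {u u' : D.G}
    (hu : D.IsGoodUnif P Q u) (hu' : D.IsGoodUnif P' Q' u')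
    (h1 : D.PoleFree (u' : F) Q) (h2 : D.PoleFree (u : F) Q') :
    DUnit D (u : F) (u' : F) := by
  have htr := transcendental_of_isGoodUnif D hu
  have htr' := transcendental_of_isGoodUnif D hu'
  let z : D.G := ⟨dq L (u' : F) (u : F), dq_mem_G D hx hu u' h1⟩
  let z' : D.G := ⟨dq L (u : F) (u' : F), dq_mem_G D hx hu' u h2⟩
  have hmul : z * z' = 1 := by
    apply Subtype.ext
    show dq L (u' : F) (u : F) * dq L (u : F) (u' : F) = 1
    rw [dq_mul_dq hx htr' htr, dq_self hx htr']
  have hred : D.red z * D.red z' = 1 := by rw [← map_mul, hmul, map_one]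
  exact ⟨z', right_ne_zero_of_mul_eq_one hred, dq_spec hx htr' (u : F)⟩

/-! ### chart covers -/

/-- A cover of the smooth part of the component by charts: `B i` a ring of functions without poles
on the discs over `St i`, containing a good uniformizer for every place over `St i`; any two
charts overlap in a smooth point (with nonempty disc). -/
structure ChartCoverC (ι : Type*) where
  /-- the chart rings -/
  B : ι → Subring F
  /-- the reduced places of the charts -/
  St : ι → Set (Place k Ft)
  cover : ∀ Q : Place k Ft, D.Sm Q → ∃ i, Q ∈ St i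
  poleFree : ∀ i, ∀ b ∈ B i, ∀ Q ∈ St i, D.PoleFree b Q
  good : ∀ i (P : Place L F) (Q : Place k Ft), D.r P = some Q → Q ∈ St i →
    ∃ u : D.G, (u : F) ∈ B i ∧ D.IsGoodUnif P Q u
  overlap : ∀ i j, ∃ Q : Place k Ft, D.Sm Q ∧ Q ∈ St i ∧ Q ∈ St j

variable {D}

/-- Two good uniformizers from the same chart ring are linked. -/
theorem dunit_of_chart (hx : IsGen L x) {ι : Type*} (C : ChartCoverC D ι) (i : ι)
    {P P' : Place L F} {Q Q' : Place k Ft} {u u' : D.G} (hu : D.IsGoodUnif P Q u)
    (hu' : D.IsGoodUnif P' Q' u')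
    (hQ : Q ∈ C.St i) (hQ' : Q' ∈ C.St i) (huB : (u : F) ∈ C.B i)
    (hu'B : (u' : F) ∈ C.B i) : DUnit D (u : F) (u' : F) :=
  dunit_of_link D hx hu hu' (C.poleFree i _ hu'B _ hQ) (C.poleFree i _ huB _ hQ')

/-- Two good uniformizers centred at the same place are linked. -/
theorem dunit_of_same (hx : IsGen L x) {P : Place L F} {Q : Place k Ft} {u u' : D.G}
    (hu : D.IsGoodUnif P Q u) (hu' : D.IsGoodUnif P Q u') : DUnit D (u : F) (u' : F) :=
  dunit_of_link D hx hu hu' hu'.poleFree hu.poleFree

/-- **(DLINK)** With a chart cover, the differentials of any two good uniformizers differ by a unit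
of the Gauss ring. -/
theorem dunit_of_cover (hx : IsGen L x) {ι : Type*} (C : ChartCoverC D ι)
    {P P' : Place L F} {Q Q' : Place k Ft} {u u' : D.G} (hu : D.IsGoodUnif P Q u)
    (hu' : D.IsGoodUnif P' Q' u') :
    DUnit D (u : F) (u' : F) := by
  obtain ⟨i, hi⟩ := C.cover Q hu.sm
  obtain ⟨j, hj⟩ := C.cover Q' hu'.sm
  obtain ⟨Q₃, ⟨P₃, hP₃⟩, hQi, hQj⟩ := C.overlap i j
  obtain ⟨uB, huBmem, huB⟩ := C.good i P Q hu.r_eq hi
  obtain ⟨w, hwmem, hw⟩ := C.good i P₃ Q₃ hP₃ hQi
  obtain ⟨w', hw'mem, hw'⟩ := C.good j P₃ Q₃ hP₃ hQj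
  obtain ⟨u'B, hu'Bmem, hu'B⟩ := C.good j P' Q' hu'.r_eq hj
  exact ((((dunit_of_same hx hu huB).trans
    (dunit_of_chart hx C i huB hw hi hQi huBmem hwmem)).trans
    (dunit_of_same hx hw hw')).trans
    (dunit_of_chart hx C j hw' hu'B hQj hj hw'mem hu'Bmem)).trans
    (dunit_of_same hx hu'B hu')

end

end Fermat.Agent.ORD.REDN.LinkC6
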