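/-
Programme ORD (S33), chapter REDN (helper5): **semilinear automorphisms of a component datum** and the
equivariance of discs, values and expansions — the mechanical port of helper7's `FF/RED/CompAut7` from
`RedDatum` to `SemiRedDatum9.CompDatum` (`CompAut D` becomes `CompAut D`; the field `r_map` reads
`D.r (g • P) = (D.r P).map (gt • ·)`; `D.r P = Q` becomes `D.r P = some Q`).  Same lemma names.

* `exists_unique_isGoodUnif_of_ord_red` : an integral function without poles on the (nonempty) disc
  `U(Q)` whose reduction is a uniformizer at `Q` is a good uniformizer, centred at its unique zero in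
  `U(Q)`;
* `CompAut D` : a pair of semilinear automorphisms `g` of `F / L` and `gt` of `Ft / k` preserving `A`, `G`,
  commuting with `res`, `red`, `r`;
* `CompAut.poleFree_smul`, `isGoodUnif_smul`, `smulA`, `smulR`, `evR_smulR`, `Chart.smul`,
  `Chart.smulHom`, `Chart.map_smulA_expand` (the expansion of `g • s` in the chart `g • c` is the
  coefficientwise conjugate);
* inertia-type corollaries (`gt` fixes `Q`, `g` fixes `u`): `Chart.P_eq_of_u_eq`,
  `CompAut.smul_centre_eq`, `CompAut.smulA_coef_eq` (coefficients of fixed functions are fixed).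
-/
import Mathlib
import Fermat.Agent.ORD.REDN.ExpandC5
import Fermat.Agent.MW.EMB.GalVal1

set_option autoImplicit false
set_option linter.unusedSectionVars false
set_option linter.style.longLine false

namespace Fermat.Agent.ORD.REDN.RedAutC5

open AlgebraicCurve Fermat.Agent.X0.FF Fermat.Agent.RR.LSpace Fermat.Agent.MW.EMB.Value6
open Fermat.Agent.ORD.SEMIRED.SemiRedDatum9 Fermat.Agent.ORD.REDN.DiscC9 Fermat.Agent.ORD.REDN.GaussC5
open Fermat.Agent.FF.RED.ExpDatum7 Fermat.Agent.ORD.REDN.ExpandC5
open Fermat.Agent.MW.EMB.GalVal1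

noncomputable section

variable {L F k Ft : Type*} [Field L] [Field F] [Algebra L F] [Field k] [Field Ft] [Algebra k Ft]
variable {D : CompDatum L F k Ft}

/-! ### functions whose reduction is a uniformizer -/

/-- An integral function without poles on `U(Q)` whose reduction is a uniformizer at `Q` has a unique
zero `P` in `U(Q)` and is a good uniformizer centred at `P`. -/
theorem exists_unique_isGoodUnif_of_ord_red (u : D.G) {Q : Place k Ft}
    (hQ : D.Sm Q) (hpf : D.PoleFree (u : F) Q) (h1 : Q.ord (D.red u) = 1) :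
    ∃! P : Place L F, D.IsGoodUnif P Q u := by
  have hred0 : D.red u ≠ 0 := by
    intro h0
    rw [h0, Place.ord_zero] at h1
    omega
  obtain ⟨P, hP, hpos⟩ := D.exists_zero_of_ord_red_pos hred0 hQ (by rw [h1]; norm_num)
  have hle := D.ord_le_ord_red hred0 hpf hP
  have hP1 : P.ord (u : F) = 1 := by omega
  have hgood : D.IsGoodUnif P Q u := by
    refine ⟨hP, hP1, hred0, fun P' hP' => ⟨hpf P' hP', fun hne => ?_⟩⟩
    have h2 := D.ord_add_ord_le_ord_red hred0 hpf hP hP' (Ne.symm hne)
    have h3 := hpf P' hP'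
    omega
  refine ⟨P, hgood, fun P' hP' => ?_⟩
  by_contra hne
  have h0 := hgood.ord_of_ne hP'.r_eq hne
  have h1' := hP'.ord_self
  omega

/-- two charts of the same disc with the same uniformizer have the same centre. -/
theorem Chart.P_eq_of_u_eq {Q : Place k Ft} (c c' : Chart D Q) (h : c.u = c'.u) : c.P = c'.P := by
  by_contra hne
  have h0 := c'.ord_u_of_ne c.hP hne
  rw [← h, c.ord_u_centre] at h0
  omega

/-! ### semilinear automorphisms of the datum -/

variable (D)

/-- A semilinear automorphism of a good-reduction datum. -/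
structure CompAut where
  g : SemilinearAut L F
  gt : SemilinearAut k Ft
  map_A : ∀ a ∈ D.A, SemilinearAut.baseAut g a ∈ D.A
  res_map : ∀ a : D.A, D.res ⟨SemilinearAut.baseAut g a, map_A a a.2⟩ =
    SemilinearAut.baseAut gt (D.res a)
  map_G : ∀ y ∈ D.G, g • y ∈ D.G
  red_map : ∀ y : D.G, D.red ⟨g • (y : F), map_G y y.2⟩ = gt • D.red y
  r_map : ∀ P : Place L F, D.r (g • P) = (D.r P).map (fun Q => gt • Q)

variable {D}

namespace CompAut

variable (α : CompAut D)

/-- the action on `A` -/
def smulA : D.A →+* D.A where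
  toFun a := ⟨SemilinearAut.baseAut α.g a, α.map_A a a.2⟩
  map_one' := Subtype.ext (map_one _)
  map_mul' _ _ := Subtype.ext (map_mul _ _ _)
  map_zero' := Subtype.ext (map_zero _)
  map_add' _ _ := Subtype.ext (map_add _ _ _)

@[simp] theorem coe_smulA (a : D.A) : ((α.smulA a : D.A) : L) = SemilinearAut.baseAut α.g a := rfl

theorem res_smulA (a : D.A) : D.res (α.smulA a) = SemilinearAut.baseAut α.gt (D.res a) :=
  α.res_map a

/-- the action on the Gauss ring -/
def smulG (y : D.G) : D.G := ⟨α.g • (y : F), α.map_G y y.2⟩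

@[simp] theorem coe_smulG (y : D.G) : ((α.smulG y : D.G) : F) = α.g • (y : F) := rfl

theorem red_smulG (y : D.G) : D.red (α.smulG y) = α.gt • D.red y := α.red_map y

theorem smulG_const (a : D.A) : α.smulG (D.const a) = D.const (α.smulA a) :=
  Subtype.ext (SemilinearAut.smul_algebraMap α.g _)

theorem smulG_sub (y z : D.G) : α.smulG (y - z) = α.smulG y - α.smulG z :=
  Subtype.ext (smul_sub' α.g _ _)

theorem ord_smul (P : Place L F) (f : F) : (α.g • P).ord (α.g • f) = P.ord f :=
  SemilinearAut.ord_smul α.g P f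

theorem ord_smul_t (Q : Place k Ft) (f : Ft) : (α.gt • Q).ord (α.gt • f) = Q.ord f :=
  SemilinearAut.ord_smul α.gt Q f

/-- every place of the fibre of `gt • Q` is the image of a place of the fibre of `Q`. -/
theorem exists_smul_eq {Q : Place k Ft} {P' : Place L F} (hP' : D.r P' = some (α.gt • Q)) :
    ∃ P : Place L F, D.r P = some Q ∧ α.g • P = P' := by
  refine ⟨α.g⁻¹ • P', ?_, smul_inv_smul _ _⟩
  have h := α.r_map (α.g⁻¹ • P')
  rw [smul_inv_smul, hP'] at h
  cases hr : D.r (α.g⁻¹ • P') with
  | none => rw [hr] at h; exact absurd h (by simp)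
  | some Q'' =>
    rw [hr, Option.map_some, Option.some.injEq] at h
    rw [MulAction.injective α.gt h]

theorem poleFree_smul {s : F} {Q : Place k Ft} (hs : D.PoleFree s Q) :
    D.PoleFree (α.g • s) (α.gt • Q) := by
  intro P' hP'
  obtain ⟨P, hP, rfl⟩ := α.exists_smul_eq hP'
  rw [α.ord_smul]
  exact hs P hP

theorem smulG_red_ne_zero {y : D.G} (hy : D.red y ≠ 0) : D.red (α.smulG y) ≠ 0 := by
  rw [α.red_smulG]
  intro h
  exact hy ((smul_eq_zero_iff α.gt _).mp h)

/-- **good uniformizers are transported.** -/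
theorem isGoodUnif_smul {P : Place L F} {Q : Place k Ft} {u : D.G} (hu : D.IsGoodUnif P Q u) :
    D.IsGoodUnif (α.g • P) (α.gt • Q) (α.smulG u) := by
  refine ⟨?_, ?_, α.smulG_red_ne_zero hu.red_ne_zero, fun P' hP' => ?_⟩
  · rw [α.r_map, hu.r_eq, Option.map_some]
  · rw [coe_smulG, α.ord_smul]; exact hu.ord_self
  · obtain ⟨P₀, hP₀, rfl⟩ := α.exists_smul_eq hP'
    rw [coe_smulG, α.ord_smul]
    refine ⟨hu.poleFree P₀ hP₀, fun hne => hu.ord_of_ne hP₀ fun h => hne (by rw [h])⟩

/-- the action on disc rings -/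
def smulR {Q Q' : Place k Ft} (hQ : α.gt • Q = Q') : discRing D Q →+* discRing D Q' where
  toFun s := ⟨α.g • (s : F), α.map_G _ s.2.1, hQ ▸ α.poleFree_smul s.2.2⟩
  map_one' := Subtype.ext (by
    show α.g • ((1 : discRing D Q) : F) = 1
    rw [Subring.coe_one, smul_one])
  map_mul' s t := Subtype.ext (by
    show α.g • ((s * t : discRing D Q) : F) = α.g • (s : F) * α.g • (t : F)
    rw [Subring.coe_mul, smul_mul'])
  map_zero' := Subtype.ext (by
    show α.g • ((0 : discRing D Q) : F) = 0
    rw [Subring.coe_zero, smul_zero])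
  map_add' s t := Subtype.ext (by
    show α.g • ((s + t : discRing D Q) : F) = α.g • (s : F) + α.g • (t : F)
    rw [Subring.coe_add, smul_add])

@[simp] theorem coe_smulR {Q Q' : Place k Ft} (hQ : α.gt • Q = Q') (s : discRing D Q) :
    ((α.smulR hQ s : discRing D Q') : F) = α.g • (s : F) := rfl

theorem smulR_constR {Q Q' : Place k Ft} (hQ : α.gt • Q = Q') (a : D.A) :
    α.smulR hQ (constR D Q a) = constR D Q' (α.smulA a) :=
  Subtype.ext (SemilinearAut.smul_algebraMap α.g _)

theorem r_smul_eq {Q Q' : Place k Ft} (hQ : α.gt • Q = Q') {P : Place L F} (hP : D.r P = some Q) :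
    D.r (α.g • P) = some Q' := by rw [α.r_map, hP, Option.map_some, hQ]

/-- **values are equivariant.** -/
theorem evR_smulR {Q Q' : Place k Ft} (hQ : α.gt • Q = Q') {P : Place L F} (hP : D.r P = some Q)
    (s : discRing D Q) :
    evR (α.r_smul_eq hQ hP) (α.smulR hQ s) = α.smulA (evR hP s) :=
  Subtype.ext (valF_smul D.HL α.g P (s : F))

end CompAut

end

end Fermat.Agent.ORD.REDN.RedAutC5

namespace Fermat.Agent.ORD.REDN.ExpandC5.Chart

open AlgebraicCurve Fermat.Agent.X0.FF Fermat.Agent.RR.LSpace Fermat.Agent.MW.EMB.Value6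
open Fermat.Agent.ORD.SEMIRED.SemiRedDatum9 Fermat.Agent.ORD.REDN.DiscC9 Fermat.Agent.ORD.REDN.GaussC5
open Fermat.Agent.FF.RED.ExpDatum7 Fermat.Agent.ORD.REDN.ExpandC5
open Fermat.Agent.MW.EMB.GalVal1
open Fermat.Agent.ORD.REDN.RedAutC5

noncomputable section

variable {L F k Ft : Type*} [Field L] [Field F] [Algebra L F] [Field k] [Field Ft] [Algebra k Ft]
variable {D : CompDatum L F k Ft}

variable {Q Q' : Place k Ft} (c : Chart D Q) (α : CompAut D) (hQ : α.gt • Q = Q')

/-- transport of a chart. -/
def smul : Chart D Q' where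
  P := α.g • c.P
  hP := α.r_smul_eq hQ c.hP
  u := α.smulG c.u
  hu := hQ ▸ α.isGoodUnif_smul c.hu

theorem smul_uR : (c.smul α hQ).uR = α.smulR hQ c.uR := rfl

/-- transport as a morphism of expansion data. -/
def smulHom : ExpDatum.Hom c.expDatum (c.smul α hQ).expDatum where
  ρ := α.smulR hQ
  res := α.smulA
  ρ_const := α.smulR_constR hQ
  res_ev := fun s => (α.evR_smulR hQ c.hP s).symm
  ρ_u := rfl

/-- **expansions are equivariant**: the expansion of `g • s` in the transported chart is the
coefficientwise conjugate of the expansion of `s`. -/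
theorem map_smulA_expand (s : discRing D Q) :
    PowerSeries.map α.smulA (c.expand s) = (c.smul α hQ).expand (α.smulR hQ s) :=
  (c.smulHom α hQ).map_expand s

theorem smulA_coef (n : ℕ) (s : discRing D Q) :
    α.smulA (c.coef n s) = (c.smul α hQ).coef n (α.smulR hQ s) :=
  (c.smulHom α hQ).res_coef n s

theorem smul_dq (s : discRing D Q) :
    α.smulR hQ (c.dq s) = (c.smul α hQ).dq (α.smulR hQ s) :=
  (c.smulHom α hQ).ρ_dq s

end

end Fermat.Agent.ORD.REDN.ExpandC5.Chart

/-! ### inertia-type corollaries -/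

namespace Fermat.Agent.ORD.REDN.RedAutC5

open AlgebraicCurve Fermat.Agent.X0.FF Fermat.Agent.RR.LSpace Fermat.Agent.MW.EMB.Value6
open Fermat.Agent.ORD.SEMIRED.SemiRedDatum9 Fermat.Agent.ORD.REDN.DiscC9 Fermat.Agent.ORD.REDN.GaussC5
open Fermat.Agent.FF.RED.ExpDatum7 Fermat.Agent.ORD.REDN.ExpandC5
open Fermat.Agent.MW.EMB.GalVal1

noncomputable section

variable {L F k Ft : Type*} [Field L] [Field F] [Algebra L F] [Field k] [Field Ft] [Algebra k Ft]
variable {D : CompDatum L F k Ft}

namespace CompAut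

variable (α : CompAut D) {Q : Place k Ft}

/-- if the automorphism fixes the disc and the uniformizer, it fixes the centre. -/
theorem smul_centre_eq (hQ : α.gt • Q = Q) (c : Chart D Q)
    (hu : α.g • (c.u : F) = (c.u : F)) : α.g • c.P = c.P := by
  have h : (c.smul α hQ).u = c.u := Subtype.ext hu
  exact Chart.P_eq_of_u_eq (c.smul α hQ) c h

theorem smul_chart_eq (hQ : α.gt • Q = Q) (c : Chart D Q)
    (hu : α.g • (c.u : F) = (c.u : F)) : c.smul α hQ = c := by
  have hP := α.smul_centre_eq hQ c hu
  have h : (c.smul α hQ).u = c.u := Subtype.ext hu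
  cases c with
  | mk P hP' u hu' =>
    simp only [ExpandC5.Chart.smul] at hP h ⊢
    congr 1

/-- **coefficients of fixed functions in a fixed chart are fixed.** -/
theorem smulA_coef_eq (hQ : α.gt • Q = Q) (c : Chart D Q)
    (hu : α.g • (c.u : F) = (c.u : F)) (s : discRing D Q)
    (hs : α.g • (s : F) = (s : F)) (n : ℕ) : α.smulA (c.coef n s) = c.coef n s := by
  have h1 := c.smulA_coef α hQ n s
  have h2 : α.smulR hQ s = s := Subtype.ext hs
  rw [h2, α.smul_chart_eq hQ c hu] at h1
  exact h1

/-- places of a fixed disc are permuted; coordinates are conjugated. -/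
theorem evR_uR_smul (hQ : α.gt • Q = Q) (c : Chart D Q)
    (hu : α.g • (c.u : F) = (c.u : F)) {P' : Place L F} (hP' : D.r P' = some Q) :
    evR (α.r_smul_eq hQ hP') c.uR = α.smulA (evR hP' c.uR) := by
  have h := α.evR_smulR hQ hP' c.uR
  have h2 : α.smulR hQ c.uR = c.uR := Subtype.ext hu
  rw [h2] at h
  exact h

end CompAut

end

end Fermat.Agent.ORD.REDN.RedAutC5
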