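/-
Programme ORD (S33), chapter REDN (helper5).  `GaussNC5` = the mechanical port of helper9's
`FF/NS/Gauss9` from `RedDatum` to `SemiRedDatum9.CompDatum` (same lemma names): elementary consequences
of the axioms, the Gauss ring `G` is the valuation ring of the Gauss valuation.

* `mem_A_of_const_mem`  : `G ∩ L = A`;
* `isUnit_of_res_ne_zero`;
* `inv_mem`, `invG`, `red_invG`, `div_mem` : an integral function with nonzero reduction is a UNIT
  of `G`;
* `exists_normal`       : every `y ≠ 0` is `c · g` with `c ∈ Lˣ`, `g ∈ G`, `red g ≠ 0`;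
* `exists_of_red_eq_zero` : `red g = 0`, `g ≠ 0` ⇒ `g = b · g'` with `b ∈ m_A`, `red g' ≠ 0`;
* `exists_pivot`        : a finite nonzero family of `L` has an entry dividing all the others in `A`.
-/
import Mathlib
import Fermat.Agent.ORD.REDN.DiscC9

set_option autoImplicit false
set_option linter.unusedSectionVars false

namespace Fermat.Agent.ORD.REDN.GaussNC5

open AlgebraicCurve Fermat.Agent.X0.FF Fermat.Agent.RR.LSpace Fermat.Agent.MW.EMB.Value6
open Fermat.Agent.ORD.SEMIRED.SemiRedDatum9 Fermat.Agent.ORD.REDN.DiscC9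

noncomputable section

variable {L F k Ft : Type*} [Field L] [Field F] [Algebra L F] [Field k] [Field Ft] [Algebra k Ft]
variable (D : CompDatum L F k Ft)

/-- An element of `L` outside `A` has its inverse in the maximal ideal of `A`. -/
theorem inv_mem_not_isUnit {c : L} (hc : c ∉ D.A) :
    ∃ h : c⁻¹ ∈ D.A, ¬ IsUnit (⟨c⁻¹, h⟩ : D.A) := by
  have hinv : c⁻¹ ∈ D.A := (D.A.mem_or_inv_mem c).resolve_left hc
  refine ⟨hinv, ?_⟩
  intro hu
  obtain ⟨b, hb⟩ := hu.exists_right_inv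
  have hb' : c⁻¹ * (b : L) = 1 := congrArg Subtype.val hb
  have hc0 : c ≠ 0 := fun h0 => hc (h0 ▸ D.A.zero_mem)
  have : (b : L) = c := by
    field_simp at hb'
    exact hb'
  exact hc (this ▸ b.2)

theorem isUnit_of_res_ne_zero {a : D.A} (h : D.res a ≠ 0) : IsUnit a := by
  by_contra hnu
  exact h ((D.res_eq_zero_iff a).mpr hnu)

theorem res_ne_zero_of_isUnit {a : D.A} (h : IsUnit a) : D.res a ≠ 0 := fun h0 =>
  (D.res_eq_zero_iff a).mp h0 h

/-- The inverse of a unit of `A` lies in `A`. -/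
theorem inv_mem_A_of_isUnit {a : D.A} (h : IsUnit a) : (a : L)⁻¹ ∈ D.A := by
  obtain ⟨b, hb⟩ := h.exists_right_inv
  have hb' : (a : L) * (b : L) = 1 := congrArg Subtype.val hb
  have : (a : L)⁻¹ = (b : L) := by
    exact inv_eq_of_mul_eq_one_right hb'
  rw [this]
  exact b.2

/-- `G ∩ L = A`. -/
theorem mem_A_of_const_mem {c : L} (h : algebraMap L F c ∈ D.G) : c ∈ D.A := by
  by_contra hc
  obtain ⟨hinv, hnu⟩ := inv_mem_not_isUnit D hc
  have hc0 : c ≠ 0 := fun h0 => hc (h0 ▸ D.A.zero_mem)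
  have h1 : D.const ⟨c⁻¹, hinv⟩ * ⟨algebraMap L F c, h⟩ = 1 := by
    apply Subtype.ext
    show algebraMap L F c⁻¹ * algebraMap L F c = 1
    rw [← map_mul, inv_mul_cancel₀ hc0, map_one]
  have h2 := congrArg D.red h1
  rw [map_mul, D.red_const', D.res_eq_zero_of_mem_maximalIdeal hnu, map_zero, zero_mul,
    map_one] at h2
  exact zero_ne_one h2

/-- **Integral functions with nonzero reduction are units of the Gauss ring.** -/
theorem inv_mem {g : D.G} (hg : D.red g ≠ 0) : (g : F)⁻¹ ∈ D.G := by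
  have hg0 : (g : F) ≠ 0 := D.coe_ne_zero_of_red_ne_zero hg
  obtain ⟨c, hc0, g', hg', hred'⟩ := D.norm (g : F)⁻¹ (inv_ne_zero hg0)
  have hcF : algebraMap L F c = (g' : F) * (g : F) := by
    rw [hg', mul_assoc, inv_mul_cancel₀ hg0, mul_one]
  have hcG : algebraMap L F c ∈ D.G := by
    rw [hcF]
    exact D.G.mul_mem g'.2 g.2
  have hcA := mem_A_of_const_mem D hcG
  have hres : D.res ⟨c, hcA⟩ ≠ 0 := by
    intro h0
    have h1 : D.const ⟨c, hcA⟩ = g' * g := Subtype.ext hcF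
    have h2 := congrArg D.red h1
    rw [D.red_const', h0, map_zero, map_mul] at h2
    exact mul_ne_zero hred' hg h2.symm
  have hinv := inv_mem_A_of_isUnit D (isUnit_of_res_ne_zero D hres)
  have : (g : F)⁻¹ = algebraMap L F c⁻¹ * (g' : F) := by
    rw [hg', ← mul_assoc, ← map_mul, inv_mul_cancel₀ hc0, map_one, one_mul]
  rw [this]
  exact D.G.mul_mem (D.const_mem ⟨c⁻¹, hinv⟩) g'.2

/-- The inverse in `G` of an integral function with nonzero reduction. -/
def invG (g : D.G) (hg : D.red g ≠ 0) : D.G := ⟨(g : F)⁻¹, inv_mem D hg⟩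

@[simp] theorem coe_invG (g : D.G) (hg : D.red g ≠ 0) : ((invG D g hg : D.G) : F) = (g : F)⁻¹ :=
  rfl

theorem mul_invG (g : D.G) (hg : D.red g ≠ 0) : g * invG D g hg = 1 :=
  Subtype.ext (mul_inv_cancel₀ (D.coe_ne_zero_of_red_ne_zero hg))

theorem red_invG (g : D.G) (hg : D.red g ≠ 0) : D.red (invG D g hg) = (D.red g)⁻¹ := by
  have h := congrArg D.red (mul_invG D g hg)
  rw [map_mul, map_one] at h
  exact eq_inv_of_mul_eq_one_right h

theorem red_invG_ne_zero (g : D.G) (hg : D.red g ≠ 0) : D.red (invG D g hg) ≠ 0 := by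
  rw [red_invG]
  exact inv_ne_zero hg

theorem div_mem {s : F} (hs : s ∈ D.G) {g : D.G} (hg : D.red g ≠ 0) : s / (g : F) ∈ D.G := by
  rw [div_eq_mul_inv]
  exact D.G.mul_mem hs (inv_mem D hg)

/-- Normal form: `y = c · g` with `red g ≠ 0`. -/
theorem exists_normal {y : F} (hy : y ≠ 0) :
    ∃ c : L, c ≠ 0 ∧ ∃ g : D.G, y = algebraMap L F c * (g : F) ∧ D.red g ≠ 0 := by
  obtain ⟨c, hc0, g, hg, hred⟩ := D.norm y hy
  refine ⟨c⁻¹, inv_ne_zero hc0, g, ?_, hred⟩
  rw [hg, ← mul_assoc, ← map_mul, inv_mul_cancel₀ hc0, map_one, one_mul]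

/-- A nonzero integral function with zero reduction is `b · g'` with `b ∈ m_A` and
`red g' ≠ 0`. -/
theorem exists_of_red_eq_zero {g : D.G} (hg0 : (g : F) ≠ 0) (hg : D.red g = 0) :
    ∃ b : D.A, ¬ IsUnit b ∧ (b : L) ≠ 0 ∧ ∃ g' : D.G,
      (g : F) = algebraMap L F (b : L) * (g' : F) ∧ D.red g' ≠ 0 := by
  obtain ⟨c, hc0, g', hg', hred'⟩ := D.norm (g : F) hg0
  have hcA : c ∉ D.A := by
    intro hcA
    have h1 : g' = D.const ⟨c, hcA⟩ * g := Subtype.ext hg'
    have h2 := congrArg D.red h1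
    rw [map_mul, hg, mul_zero] at h2
    exact hred' h2
  obtain ⟨hinv, hnu⟩ := inv_mem_not_isUnit D hcA
  refine ⟨⟨c⁻¹, hinv⟩, hnu, inv_ne_zero hc0, g', ?_, hred'⟩
  show (g : F) = algebraMap L F c⁻¹ * (g' : F)
  rw [hg', ← mul_assoc, ← map_mul, inv_mul_cancel₀ hc0, map_one, one_mul]

end

/-- In a valuation ring, a finite family of elements of the fraction field, not all zero, has an
entry which divides all the others. -/
theorem exists_pivot {L : Type*} [Field L] (A : ValuationSubring L) {ι : Type*} (s : Finset ι)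
    (a : ι → L) (h : ∃ i ∈ s, a i ≠ 0) :
    ∃ i₀ ∈ s, a i₀ ≠ 0 ∧ ∀ i ∈ s, a i / a i₀ ∈ A := by
  obtain ⟨j, hj, hj0⟩ := h
  obtain ⟨i₀, hi₀, hmax⟩ := Finset.exists_max_image s (fun i => A.valuation (a i)) ⟨j, hj⟩
  have hi₀0 : a i₀ ≠ 0 := by
    intro h0
    have h1 := hmax j hj
    rw [h0, map_zero] at h1
    exact hj0 ((map_eq_zero _).mp (le_antisymm h1 zero_le))
  refine ⟨i₀, hi₀, hi₀0, fun i hi => ?_⟩
  rw [← A.valuation_le_one_iff, map_div₀]
  exact div_le_one_of_le₀ (hmax i hi) zero_le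

end Fermat.Agent.ORD.REDN.GaussNC5
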