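/-
Programme ORD (S33), chapter REDN (helper6): **(DLINK) on one component WITHOUT chart covers.**

`LinkC6.dunit_of_cover` needs a cover of the smooth part of the component by charts whose rings
contain good uniformizers of all their points (a semi-local statement).  Here we replace it by a
purely LOCAL hypothesis, which is exactly what helper8's `SmoothAtlas8.exists_frac_rep` provides:

* `FracRep D` : for every smooth point `Q` (with non-empty disc), every Gauss unit `g`
  (`red g ≠ 0`) is a fraction `g = a / b` of integral functions `a, b ∈ G` WITHOUT POLES ON THE DISC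
  of `Q`, with `red b ≠ 0`.

Then for a good uniformizer `u` of the disc of `Q` the derivation `d/du` PRESERVES the Gauss ring:
`dg/du = (da/du − g · db/du) / b` and `da/du, db/du ∈ G` by the Cauchy estimate + maximum modulus
(`LinkC6.dq_mem_G`), `1/b ∈ G` (`MaxModC6.invG`).  Hence for two good uniformizers `u, u'` (of ANY two
smooth discs of the component) `du'/du` and `du/du'` are both integral, their product is `1`, and
they are Gauss units:

* `dq_mem_G_of_fracRep`, `dunit_of_fracRep` : **(DLINK)**.
-/
import Mathlib
import Fermat.Agent.ORD.REDN.LinkC6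

set_option autoImplicit false
set_option linter.unusedSectionVars false
set_option linter.style.longLine false

namespace Fermat.Agent.ORD.REDN.LinkFrac6

open AlgebraicCurve KaehlerDifferential Fermat.Agent.X0.FF Fermat.Agent.RR.LSpace
  Fermat.Agent.MW.EMB.Value6
open Fermat.Agent.ORD.SEMIRED.SemiRedDatum9 Fermat.Agent.ORD.REDN.DiscC9
  Fermat.Agent.ORD.REDN.MaxModC6 Fermat.Agent.FF.NS.DiffVal9 Fermat.Agent.ORD.REDN.LinkC6

noncomputable section

variable {L F k Ft : Type*} [Field L] [Field F] [Algebra L F] [Field k] [Field Ft] [Algebra k Ft]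
variable [IsAlgClosed L] [CharZero L] {x : F}
variable (D : CompDatum L F k Ft)

/-- **Fraction representation on the smooth discs**: every Gauss unit is a fraction of integral
functions without poles on the disc of `Q`, the denominator being a Gauss unit. -/
def FracRep : Prop :=
  ∀ Q : Place k Ft, D.Sm Q → ∀ g : D.G, D.red g ≠ 0 →
    ∃ a b : D.G, D.red b ≠ 0 ∧ D.PoleFree (a : F) Q ∧ D.PoleFree (b : F) Q ∧
      (g : F) * (b : F) = (a : F)

variable {D}

/-- **`d/du` preserves the Gauss units** (`u` a good uniformizer of a smooth disc). -/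
theorem dq_mem_G_of_fracRep (hx : IsGen L x) (hfr : FracRep D) {P : Place L F} {Q : Place k Ft}
    {u : D.G} (hu : D.IsGoodUnif P Q u) (g : D.G) (hg : D.red g ≠ 0) :
    dq L (g : F) (u : F) ∈ D.G := by
  obtain ⟨a, b, hb, hpa, hpb, e⟩ := hfr Q hu.sm g hg
  have htr := transcendental_of_isGoodUnif D hu
  have hb0 : (b : F) ≠ 0 := D.coe_ne_zero_of_red_ne_zero hb
  have hda : dq L (a : F) (u : F) ∈ D.G := dq_mem_G D hx hu a hpa
  have hdb : dq L (b : F) (u : F) ∈ D.G := dq_mem_G D hx hu b hpb
  -- Leibniz
  have h1 : KaehlerDifferential.D L F (a : F) =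
      (g : F) • KaehlerDifferential.D L F (b : F) + (b : F) • KaehlerDifferential.D L F (g : F) := by
    rw [← e, Derivation.leibniz]
  rw [dq_spec hx htr (a : F), dq_spec hx htr (b : F), smul_smul] at h1
  have h2 : KaehlerDifferential.D L F (g : F) =
      ((dq L (a : F) (u : F) - (g : F) * dq L (b : F) (u : F)) * (b : F)⁻¹) •
        KaehlerDifferential.D L F (u : F) := by
    have h3 : (b : F) • KaehlerDifferential.D L F (g : F) =
        (dq L (a : F) (u : F) - (g : F) * dq L (b : F) (u : F)) •
          KaehlerDifferential.D L F (u : F) := by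
      rw [sub_smul, h1, add_sub_cancel_left]
    rw [mul_comm, mul_smul, ← h3, smul_smul, inv_mul_cancel₀ hb0, one_smul]
  rw [dq_unique hx htr h2]
  have : (dq L (a : F) (u : F) - (g : F) * dq L (b : F) (u : F)) * (b : F)⁻¹ =
      (((⟨_, hda⟩ : D.G) - g * ⟨_, hdb⟩) * invG D b hb : D.G) := by
    rw [Subring.coe_mul, coe_invG]
    rfl
  rw [this]
  exact Subtype.coe_prop _

/-- **(DLINK) from the fraction representation**: the differentials of any two good uniformizers
(of any two smooth discs of the component) differ by a unit of the Gauss ring. -/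
theorem dunit_of_fracRep (hx : IsGen L x) (hfr : FracRep D) {P P' : Place L F}
    {Q Q' : Place k Ft} {u u' : D.G} (hu : D.IsGoodUnif P Q u) (hu' : D.IsGoodUnif P' Q' u') :
    DUnit D (u : F) (u' : F) := by
  have htr := transcendental_of_isGoodUnif D hu
  have htr' := transcendental_of_isGoodUnif D hu'
  let z : D.G := ⟨dq L (u' : F) (u : F), dq_mem_G_of_fracRep hx hfr hu u' hu'.red_ne_zero⟩
  let z' : D.G := ⟨dq L (u : F) (u' : F), dq_mem_G_of_fracRep hx hfr hu' u hu.red_ne_zero⟩
  have hmul : z * z' = 1 := by
    apply Subtype.ext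
    show dq L (u' : F) (u : F) * dq L (u : F) (u' : F) = 1
    rw [dq_mul_dq hx htr' htr, dq_self hx htr']
  have hred : D.red z * D.red z' = 1 := by rw [← map_mul, hmul, map_one]
  exact ⟨z', right_ne_zero_of_mul_eq_one hred, dq_spec hx htr' (u : F)⟩

end

end Fermat.Agent.ORD.REDN.LinkFrac6
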